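/-
S45lib / G / Twist  (helper3)  --  EXPORT 1 of the multi-component thick core (Project J, (G))

Interface: helper6's `S45lib/MThick/Datum.lean` (`MDatum`, `MCtx`, `KummerFamily`, `IsMultiUnit`,
`IsTwist`, `ExistsTwistStatement`).

**`ExistsTwistStatement D g` holds as soon as (GLUE) holds and the multi-points are rational**
(`existsTwistStatement_of_glue`; for a context: `existsTwistStatement_of_mctx`): a Kummer multi-unit
`z` (`red i z = b i` nonzero constants) with Kummer family `𝓔` has a twist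
`lam : Fin s → ι → k`, normalised by `lam c i₀ = 1`.

Only (GLUE) is used, exactly as in `S36lib/Thick/Twist.lean`: for `h ∈ 𝓔 a b ∩ O` the function
`hⁿ z` lies in `𝓛 (n a) (n b) ∩ O`, so its reductions `b i (red i h)ⁿ` have a common value at every
multi-point; hence the reductions of `h` are regular there and `b i · hᵢ(x i c)ⁿ` is independent of
`i`.  The reductions of `𝓔 m m ∩ O` form a `k`-subspace of `∀ i, Fk i` (`redImage`), to which the
linear algebra of `S36lib/Thick/TwistLA` (`exists_ratio`) applies; the twists for the increasing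
chain `m = 0, 1, 2, …` are then made independent of `m`.

Also: uniqueness and multiplicativity of the (normalised) twist, given a function with
`red i₀ = 1` (`NondegStatement`).
-/
import Mathlib
import Fermat.Agent.S45lib.MThick.Datum
import Fermat.Agent.S36lib.Thick.Twist
import Fermat.Agent.S36lib.J.Val

set_option autoImplicit false
set_option linter.unusedSectionVars false

noncomputable section

namespace Fermat.Agent.S45lib.G

open AlgebraicCurve Module
open Fermat.Agent.LSb (HasValueAt)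
open Fermat.Agent.LSb.Core (valAt)
open Fermat.Agent.S36lib.Thick (exists_ratio evalAt hasValueAt_valAt valAt_eq_of_hasValueAt
  mem_of_hasValueAt)
open Fermat.Agent.S45lib.MThick

/-! ### the linear algebra for a family of components -/

section LA

variable {k : Type*} [Field k] {ι : Type*} {Fk : ι → Type*} [∀ i, Field (Fk i)]
variable [∀ i, Algebra k (Fk i)] {s : ℕ}

/-- **twist for a family of components**, relative to a reference component `i₀`:
`b i · φᵢ(x i c)ⁿ = b i₀ · φ_{i₀}(x i₀ c)ⁿ` on a subspace of `∀ i, Fk i`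
⇒ `φᵢ(x i c) = lam c i · φ_{i₀}(x i₀ c)` with `lam c i ≠ 0`. -/
theorem exists_twist_fam (x : ∀ i, Fin s → Place k (Fk i)) (hx : ∀ i c, (x i c).deg = 1)
    (V : Submodule k (∀ i, Fk i))
    (reg : ∀ φ ∈ V, ∀ i c, φ i ∈ (x i c).toValuationSubring)
    {n : ℕ} (hn : n ≠ 0) {b : ι → k} (hb : ∀ i, b i ≠ 0) (i₀ : ι)
    (h : ∀ φ ∈ V, ∀ i c, b i * valAt (x i c) (φ i) ^ n = b i₀ * valAt (x i₀ c) (φ i₀) ^ n) :
    ∃ lam : Fin s → ι → k, (∀ c i, lam c i ≠ 0) ∧
      (∀ φ ∈ V, ∀ c i, valAt (x i c) (φ i) = lam c i * valAt (x i₀ c) (φ i₀)) ∧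
      (∀ c i, (∃ φ ∈ V, valAt (x i₀ c) (φ i₀) ≠ 0) → b i₀ = b i * lam c i ^ n) := by
  have key : ∀ c i, ∃ l : k, l ≠ 0 ∧
      (∀ φ ∈ V, valAt (x i c) (φ i) = l * valAt (x i₀ c) (φ i₀)) ∧
      ((∃ φ ∈ V, valAt (x i₀ c) (φ i₀) ≠ 0) → b i₀ = b i * l ^ n) := by
    intro c i
    obtain ⟨l, hl0, hl, hl'⟩ := exists_ratio
      (evalAt (x i₀ c) (hx i₀ c) (LinearMap.proj (R := k) (φ := Fk) i₀) V
        (fun φ hφ => reg φ hφ i₀ c))
      (evalAt (x i c) (hx i c) (LinearMap.proj (R := k) (φ := Fk) i) V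
        (fun φ hφ => reg φ hφ i c))
      hn (hb i₀) (hb i) (fun φ => (h φ φ.2 i c).symm)
    exact ⟨l, hl0, fun φ hφ => hl ⟨φ, hφ⟩, fun ⟨φ, hφ, h0⟩ => hl' ⟨⟨φ, hφ⟩, h0⟩⟩
  choose lam h0 h1 h2 using key
  exact ⟨lam, h0, fun φ hφ c i => h1 c i φ hφ, h2⟩

end LA

variable {K : Type*} [Field K] {R : ValuationSubring K}
variable {F : Type*} [Field F] [Algebra K F]
variable {ι : Type*} {Fk : ι → Type*} [∀ i, Field (Fk i)]
variable [∀ i, Algebra (IsLocalRing.ResidueField R) (Fk i)]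

local notation "k" => IsLocalRing.ResidueField R

/-! ### the reduction calculus on `O` (no context needed) -/

section Red

variable (D : MDatum R F ι Fk)

/-- the component `i` as a bare place -/
abbrev placeOf (i : ι) : Fermat.Agent.S36lib.Norm.Place F (Fk i) :=
  Fermat.Agent.S36lib.J.ramPlace (D.V i)

theorem redF_eq (i : ι) (y : F) : D.redF i y = (placeOf D i).redF y := rfl

theorem mem_V_of_mem_O {y : F} (h : y ∈ D.O) (i : ι) : y ∈ (placeOf D i).O := MDatum.mem_O.1 h i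

theorem algebraMap_mem_V (a : R) (i : ι) : algebraMap K F (a : K) ∈ (placeOf D i).O :=
  ((D.V i).algebraMap_mem_iff _).2 a.2

theorem algebraMap_mem_ball (a : R) : algebraMap K F (a : K) ∈ D.O :=
  MDatum.mem_O.2 fun i => algebraMap_mem_V D a i

theorem redF_algebraMap' (a : R) (i : ι) :
    D.redF i (algebraMap K F (a : K)) = algebraMap k (Fk i) (IsLocalRing.residue R a) := by
  rw [redF_eq, (placeOf D i).redF_of_mem (algebraMap_mem_V D a i)]
  exact (D.V i).red_algebraMap a _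

theorem redF_smul' {y : F} (a : R) {i : ι} (hy : y ∈ (placeOf D i).O) :
    D.redF i (algebraMap K F (a : K) * y) = IsLocalRing.residue R a • D.redF i y := by
  rw [redF_eq, (placeOf D i).redF_mul (algebraMap_mem_V D a i) hy, ← redF_eq, ← redF_eq,
    redF_algebraMap', Algebra.smul_def]

/-- the family of reductions of `h` -/
def redT (h : F) : ∀ i, Fk i := fun i => D.redF i h

@[simp] theorem redT_apply (h : F) (i : ι) : redT D h i = D.redF i h := rfl

/-- the `k`-subspace of `∀ i, Fk i` of reductions of `W ∩ O` -/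
def redImage (W : Submodule K F) : Submodule k (∀ i, Fk i) where
  carrier := {φ | ∃ h ∈ W, h ∈ D.O ∧ redT D h = φ}
  zero_mem' := by
    refine ⟨0, W.zero_mem, D.O.zero_mem, ?_⟩
    funext i
    exact (placeOf D i).redF_zero
  add_mem' := by
    rintro _ _ ⟨h, hW, hO, rfl⟩ ⟨h', hW', hO', rfl⟩
    refine ⟨h + h', W.add_mem hW hW', D.O.add_mem hO hO', ?_⟩
    funext i
    exact (placeOf D i).redF_add (mem_V_of_mem_O D hO i) (mem_V_of_mem_O D hO' i)
  smul_mem' := by
    rintro c _ ⟨h, hW, hO, rfl⟩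
    obtain ⟨r, rfl⟩ := IsLocalRing.residue_surjective c
    refine ⟨algebraMap K F (r : K) * h, ?_, D.O.mul_mem (algebraMap_mem_ball D r) hO, ?_⟩
    · rw [← Algebra.smul_def]
      exact W.smul_mem _ hW
    · funext i
      exact redF_smul' D r (mem_V_of_mem_O D hO i)

theorem mem_redImage {W : Submodule K F} {φ : ∀ i, Fk i} :
    φ ∈ redImage D W ↔ ∃ h ∈ W, h ∈ D.O ∧ redT D h = φ := Iff.rfl

theorem redImage_mono {W W' : Submodule K F} (h : W ≤ W') : redImage D W ≤ redImage D W' := by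
  rintro _ ⟨f, hW, hO, rfl⟩
  exact ⟨f, h hW, hO, rfl⟩

end Red

/-- a multi-unit lies in `O` -/
theorem isMultiUnit_mem_O {D : MDatum R F ι Fk} {z : F} {b : ι → k} (hz : IsMultiUnit D z b) :
    z ∈ D.O := by
  refine MDatum.mem_O.2 fun i => (placeOf D i).mem_of_redF_ne_zero ?_
  rw [← redF_eq, hz.red i]
  exact (map_ne_zero _).2 (hz.b_ne i)

/-- **(GLUE)**, the hypothesis of Export 1 (= the field `MCtx.glue`): the reductions of a function
of `𝓛 a b ∩ O` have a common value at every multi-point. -/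
def GlueR (D : MDatum R F ι Fk) : Prop :=
  ∀ (a b : ℕ) (f : F), f ∈ D.𝓛 a b → f ∈ D.O → ∀ c, ∃ α : k,
    ∀ i, HasValueAt (D.x i c) (D.redF i f) α

/-- **(GLUE) for Kummer lattices**: the reductions of `h ∈ 𝓔 a b ∩ O` are regular at the
multi-points and `b i · hᵢ(x i c)ⁿ` does not depend on `i`. -/
theorem glue_pow {D : MDatum R F ι Fk} {g : ℕ} (hdeg : ∀ i c, (D.x i c).deg = 1)
    (glue : GlueR D) {n : ℕ} (hn : n ≠ 0) {z : F}
    (E : KummerFamily D g n z) {b : ι → k} (hz : IsMultiUnit D z b)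
    {a a' : ℕ} {h : F} (hh : h ∈ E.𝓔 a a') (hO : h ∈ D.O) (c : Fin D.s) :
    ∃ α : k, ∀ i, D.redF i h ∈ (D.x i c).toValuationSubring ∧
      b i * valAt (D.x i c) (D.redF i h) ^ n = α := by
  have hzO := isMultiUnit_mem_O hz
  have hf := E.mixed_mem hh hh
  have hpow : h * h ^ (n - 1) = h ^ n := by
    rw [← pow_succ', Nat.sub_add_cancel (Nat.pos_of_ne_zero hn)]
  rw [hpow] at hf
  have hfO : h ^ n * z ∈ D.O := D.O.mul_mem (D.O.pow_mem hO n) hzO
  obtain ⟨α, hα⟩ := glue _ _ _ hf hfO c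
  refine ⟨α, fun i => ?_⟩
  have v := hα i
  have hi : h ∈ (placeOf D i).O := mem_V_of_mem_O D hO i
  have zi : z ∈ (placeOf D i).O := mem_V_of_mem_O D hzO i
  rw [redF_eq, (placeOf D i).redF_mul ((placeOf D i).O.pow_mem hi n) zi,
    (placeOf D i).redF_pow hi, ← redF_eq, ← redF_eq, hz.red i] at v
  exact Fermat.Agent.S36lib.Thick.Twist.regular_of_pow_mul_const (hdeg i c) hn (hz.b_ne i) v

/-- **Export 1 of the multi-component thick core: a Kummer multi-unit has a twist, normalised at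
`i₀`** (from (GLUE) and the rationality of the multi-points only). -/
theorem existsTwistStatement_of_glue (D : MDatum R F ι Fk) (g : ℕ)
    (hdeg : ∀ i c, (D.x i c).deg = 1) (glue : GlueR D) : ExistsTwistStatement D g := by
  classical
  intro n hnk z E b hz
  have hn : n ≠ 0 := by
    rintro rfl
    exact hnk Nat.cast_zero
  -- the chain of reduction spaces
  set V : ℕ → Submodule k (∀ i, Fk i) := fun m => redImage D (E.𝓔 m m) with hV
  have hVmono : ∀ {m m' : ℕ}, m ≤ m' → V m ≤ V m' := fun hmm =>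
    redImage_mono D (E.mono hmm hmm)
  have hreg : ∀ m, ∀ φ ∈ V m, ∀ c, ∃ α : k, ∀ i, φ i ∈ (D.x i c).toValuationSubring ∧
      b i * valAt (D.x i c) (φ i) ^ n = α := by
    rintro m _ ⟨h, hh, hO, rfl⟩ c
    exact glue_pow hdeg glue hn E hz hh hO c
  -- the twist at each level
  have hlev : ∀ m, ∃ lam : Fin D.s → ι → k, (∀ c i, lam c i ≠ 0) ∧
      ∀ φ ∈ V m, ∀ c i, valAt (D.x i c) (φ i) = lam c i * valAt (D.x D.i₀ c) (φ D.i₀) := by
    intro m
    obtain ⟨lam, h0, h1, -⟩ := exists_twist_fam D.x hdeg (V m)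
      (fun φ hφ i c => by
        obtain ⟨α, hα⟩ := hreg m φ hφ c
        exact (hα i).1)
      hn hz.b_ne D.i₀
      (fun φ hφ i c => by
        obtain ⟨α, hα⟩ := hreg m φ hφ c
        exact (hα i).2.trans (hα D.i₀).2.symm)
    exact ⟨lam, h0, h1⟩
  choose lam h0 h1 using hlev
  -- make the twist independent of the level
  have hglob : ∀ c, ∃ l : ι → k, (∀ i, l i ≠ 0) ∧ l D.i₀ = 1 ∧
      ∀ m, ∀ φ ∈ V m, ∀ i, valAt (D.x i c) (φ i) = l i * valAt (D.x D.i₀ c) (φ D.i₀) := by
    intro c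
    by_cases hex : ∃ m₀, ∃ φ₀ ∈ V m₀, valAt (D.x D.i₀ c) (φ₀ D.i₀) ≠ 0
    · obtain ⟨m₀, φ₀, hφ₀, hα⟩ := hex
      refine ⟨fun i => lam m₀ c i, fun i => h0 m₀ c i, ?_, fun m φ hφ i => ?_⟩
      · have a2 := h1 m₀ φ₀ hφ₀ c D.i₀
        have a3 : (1 : k) * valAt (D.x D.i₀ c) (φ₀ D.i₀) =
            lam m₀ c D.i₀ * valAt (D.x D.i₀ c) (φ₀ D.i₀) := by rw [one_mul]; exact a2
        exact (mul_right_cancel₀ hα a3).symm
      · have hφM : φ ∈ V (max m m₀) := hVmono (le_max_left m m₀) hφ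
        have hφ₀M : φ₀ ∈ V (max m m₀) := hVmono (le_max_right m m₀) hφ₀
        have e1 : lam (max m m₀) c i = lam m₀ c i := by
          have a1 := h1 (max m m₀) φ₀ hφ₀M c i
          have a2 := h1 m₀ φ₀ hφ₀ c i
          exact mul_right_cancel₀ hα (a1.symm.trans a2)
        change valAt (D.x i c) (φ i) = lam m₀ c i * valAt (D.x D.i₀ c) (φ D.i₀)
        rw [← e1]
        exact h1 (max m m₀) φ hφM c i
    · push Not at hex
      refine ⟨fun _ => 1, fun _ => one_ne_zero, rfl, fun m φ hφ i => ?_⟩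
      have a := h1 m φ hφ c i
      rw [hex m φ hφ, mul_zero] at a
      rw [hex m φ hφ, mul_zero]
      exact a
  choose l hl0 hl1 hl using hglob
  refine ⟨l, hl0, hl1, ?_⟩
  intro a a' h hh hO c
  have hhm : h ∈ E.𝓔 (max a a') (max a a') :=
    E.mono (le_max_left a a') (le_max_right a a') hh
  have hφ : redT D h ∈ V (max a a') := ⟨h, hhm, hO, rfl⟩
  obtain ⟨α, hα⟩ := hreg _ _ hφ c
  refine ⟨valAt (D.x D.i₀ c) (D.redF D.i₀ h), fun i => ?_⟩
  have e := hl c _ _ hφ i
  have := hasValueAt_valAt _ (hdeg i c) (hα i).1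
  rw [e] at this
  exact this

/-- **Export 1 for a multi-component thick context.** -/
theorem existsTwistStatement_of_mctx [Fintype ι] [DecidableEq ι]
    {D : MDatum R F ι Fk} {g : ℕ} {gk : ι → ℕ} (C : MCtx D g gk) : ExistsTwistStatement D g :=
  existsTwistStatement_of_glue D g (fun i _ => (C.hF i).deg_eq_one _) C.glue

/-! ### uniqueness and multiplicativity of the twist (given a function with `red i₀ = 1`) -/

section Unique

variable {D : MDatum R F ι Fk} {g n : ℕ}

/-- a twist evaluated on a function with `red i₀ f = 1`: the value of `red i f` at `x i c` is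
`lam c i / lam c i₀`. -/
theorem twist_hasValueAt_of_red_eq_one {z : F} {E : KummerFamily D g n z}
    {lam : Fin D.s → ι → k} (ht : IsTwist D E lam) {i₀ : ι}
    {a a' : ℕ} {f : F} (hf : f ∈ E.𝓔 a a') (hO : f ∈ D.O) (h1 : D.redF i₀ f = 1)
    (c : Fin D.s) (i : ι) : HasValueAt (D.x i c) (D.redF i f) (lam c i / lam c i₀) := by
  obtain ⟨α, hα⟩ := ht a a' f hf hO c
  have v0 := hα i₀
  rw [h1] at v0
  have e : lam c i₀ * α = 1 := v0.unique Fermat.Agent.LSb.hasValueAt_one
  have eα : α = (lam c i₀)⁻¹ := eq_inv_of_mul_eq_one_right e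
  have := hα i
  rwa [eα, ← div_eq_mul_inv] at this

/-- **uniqueness of the twist** up to rescaling at the multi-points: if some `f ∈ 𝓔 a a' ∩ O` has
`red i₀ f = 1` (`NondegStatement`), two twists of the same Kummer family have the same ratios
`lam c i / lam c i₀`. -/
theorem twist_div_eq_of_exists_one {z : F} {E : KummerFamily D g n z}
    {lam lam' : Fin D.s → ι → k} (ht : IsTwist D E lam) (ht' : IsTwist D E lam') {i₀ : ι}
    (hone : ∃ a a' : ℕ, ∃ f ∈ E.𝓔 a a', f ∈ D.O ∧ D.redF i₀ f = 1) (c : Fin D.s) (i : ι) :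
    lam c i / lam c i₀ = lam' c i / lam' c i₀ := by
  obtain ⟨a, a', f, hf, hO, h1⟩ := hone
  exact (twist_hasValueAt_of_red_eq_one ht hf hO h1 c i).unique
    (twist_hasValueAt_of_red_eq_one ht' hf hO h1 c i)

/-- uniqueness of the NORMALISED twist -/
theorem twist_eq_of_exists_one {z : F} {E : KummerFamily D g n z}
    {lam lam' : Fin D.s → ι → k} (ht : IsTwist D E lam) (ht' : IsTwist D E lam') {i₀ : ι}
    (h0 : ∀ c, lam c i₀ = 1) (h0' : ∀ c, lam' c i₀ = 1)
    (hone : ∃ a a' : ℕ, ∃ f ∈ E.𝓔 a a', f ∈ D.O ∧ D.redF i₀ f = 1) : lam = lam' := by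
  funext c i
  have := twist_div_eq_of_exists_one ht ht' hone c i
  rwa [h0 c, h0' c, div_one, div_one] at this

/-- **multiplicativity of the twist**: for Kummer families `E, E', E''` of `z, z', z z'` with
`𝓔 · 𝓔' ⊆ 𝓔''`, the normalised twists multiply (given functions with `red i₀ = 1` in `𝓔`, `𝓔'`). -/
theorem twist_mul_of_exists_one {z z' : F} {E : KummerFamily D g n z}
    {E' : KummerFamily D g n z'} {E'' : KummerFamily D g n (z * z')}
    (hprod : ∀ {a b a' b' : ℕ} {h h' : F}, h ∈ E.𝓔 a b → h' ∈ E'.𝓔 a' b' →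
      h * h' ∈ E''.𝓔 (a + a') (b + b'))
    {lam lam' lam'' : Fin D.s → ι → k}
    (ht : IsTwist D E lam) (ht' : IsTwist D E' lam') (ht'' : IsTwist D E'' lam'') {i₀ : ι}
    (hone : ∃ a b : ℕ, ∃ f ∈ E.𝓔 a b, f ∈ D.O ∧ D.redF i₀ f = 1)
    (hone' : ∃ a b : ℕ, ∃ f ∈ E'.𝓔 a b, f ∈ D.O ∧ D.redF i₀ f = 1) (c : Fin D.s) (i : ι) :
    lam'' c i / lam'' c i₀ = (lam c i / lam c i₀) * (lam' c i / lam' c i₀) := by
  obtain ⟨a, b, f, hf, hO, h1⟩ := hone
  obtain ⟨a', b', f', hf', hO', h1'⟩ := hone'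
  have h1'' : D.redF i₀ (f * f') = 1 := by
    rw [redF_eq, (placeOf D i₀).redF_mul (mem_V_of_mem_O D hO i₀) (mem_V_of_mem_O D hO' i₀),
      ← redF_eq, ← redF_eq, h1, h1', mul_one]
  have v := twist_hasValueAt_of_red_eq_one ht hf hO h1 c i
  have v' := twist_hasValueAt_of_red_eq_one ht' hf' hO' h1' c i
  have v'' := twist_hasValueAt_of_red_eq_one ht'' (hprod hf hf') (D.O.mul_mem hO hO') h1'' c i
  rw [redF_eq, (placeOf D i).redF_mul (mem_V_of_mem_O D hO i) (mem_V_of_mem_O D hO' i),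
    ← redF_eq, ← redF_eq] at v''
  exact v''.unique (v.mul v')

end Unique

end Fermat.Agent.S45lib.G
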