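/-
S45lib / G / Bounds  (helper3)  --  SYMBOL BOUNDS for arbitrary balanced multi-indices
(Project J, (G); interface: helper6's `MThick/Datum.lean`, `MThick/Basic.lean`)

For a multi-component thick context `C : MCtx D g gk`, a component `i`, a multi-index `α : ι → ℕ`
BALANCED at `i` (`α i · e j ≤ α j · e i` for all `j`, i.e. `α i / e i` is minimal) and a function
`f ∈ 𝓛 a b` with `v_j f ≥ α j` for all `j`, the symbol `ψ = sym_i (α i) f = red_i(f / ϖ_i^{α i})`
satisfies (power trick `Y = f^{e_i} π^{-α_i}`, then (CHART) and (MULT)):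

* (B1) `0 ≤ e_i (ord_v ψ + D̄_i(a,b)(v)) + α_i ord_v κ_i`                    at every place `v` of `Z_i`;
* (B2) `Σ_j (e_i α_j − α_i e_j) w_ij ≤ e_i ord ψ + α_i ord κ_i`              at every multi-point.

(`untwisted_bounds`).  The SAME bounds hold for `h ∈ 𝓔 a b` of a Kummer family of a multi-unit
(`kummer_bounds`): apply the untwisted bounds to `hⁿ z ∈ 𝓛 (n a) (n b)` with `n α` and divide by `n`.
These are homogeneous in `(α, a, b, ord)`, so they hold for ALL balanced `α`, not only for the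
positions of a schedule.
-/
import Mathlib
import Fermat.Agent.S45lib.MThick.Basic
import Fermat.Agent.S45lib.G.Twist

set_option autoImplicit false
set_option linter.unusedSectionVars false

noncomputable section

namespace Fermat.Agent.S45lib.G

open AlgebraicCurve Module
open Fermat.Agent.LSb.Core (lin2 lin2_apply)
open Fermat.Agent.S18lib.Cech (mem_rr_iff mem_rr_of_ne ord_pow ord_const)
open Fermat.Agent.S36lib.Thick (DVal)
open Fermat.Agent.S45lib.MThick

variable {K : Type*} [Field K] {R : ValuationSubring K}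
variable {F : Type*} [Field F] [Algebra K F]
variable {ι : Type*} [Fintype ι] [DecidableEq ι] {Fk : ι → Type*} [∀ i, Field (Fk i)]
variable [∀ i, Algebra (IsLocalRing.ResidueField R) (Fk i)]

local notation "k" => IsLocalRing.ResidueField R

variable {D : MDatum R F ι Fk} {g : ℕ} {gk : ι → ℕ} (C : MCtx D g gk)

/-! ### chart spaces -/

include C in
theorem pow_mem_𝓛 {a b : ℕ} {f : F} (hf : f ∈ D.𝓛 a b) (n : ℕ) : f ^ n ∈ D.𝓛 (n * a) (n * b) := by
  induction n with
  | zero => simpa using C.one_mem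
  | succ n ih =>
    have := C.mul_mem ih hf
    rw [← pow_succ] at this
    have e1 : (n + 1) * a = n * a + a := by ring
    have e2 : (n + 1) * b = n * b + b := by ring
    rw [e1, e2]
    exact this

omit [Fintype ι] [DecidableEq ι] in
theorem algebraMap_mul_mem_𝓛 (c : K) {a b : ℕ} {f : F} (hf : f ∈ D.𝓛 a b) :
    f * algebraMap K F c ∈ D.𝓛 a b := by
  have := (D.𝓛 a b).smul_mem c hf
  rwa [Algebra.smul_def, mul_comm] at this

omit [Fintype ι] [DecidableEq ι] in
theorem chartDiv_mul (i : ι) (n a b : ℕ) (v : Place k (Fk i)) :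
    D.chartDiv i (n * a) (n * b) v = (n : ℤ) * D.chartDiv i a b v := by
  rw [MDatum.chartDiv, MDatum.chartDiv, lin2_apply, lin2_apply]
  push_cast; ring

/-! ### the untwisted bounds -/

section Untwisted

variable {i : ι} {a b : ℕ} {α : ι → ℕ} (hbal : ∀ j, α i * D.e j ≤ α j * D.e i) {f : F}
  (hf : f ∈ D.𝓛 a b) (hI : C.I (fun j => (α j : ℤ)) f)

include C hf in
/-- the auxiliary function `Y = f^{e_i} π^{-α_i}` lies in `𝓛 (e_i a) (e_i b)` -/
theorem aux_mem_𝓛 :
    f ^ D.e i * (algebraMap K F D.π)⁻¹ ^ α i ∈ D.𝓛 (D.e i * a) (D.e i * b) := by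
  have := algebraMap_mul_mem_𝓛 ((D.π⁻¹) ^ α i) (pow_mem_𝓛 C hf (D.e i))
  rwa [map_pow, map_inv₀] at this

include hI in
/-- `v_j(Y) ≥ e_i α_j − α_i e_j` -/
theorem aux_ge (j : ι) :
    (C.W j).Ge ((D.e i : ℤ) * α j - α i * D.e j)
      (f ^ D.e i * (algebraMap K F D.π)⁻¹ ^ α i) := by
  have h1 := (hI j).pow (D.e i)
  have h2 := (C.ge_π_inv j).pow (α i)
  have := h1.mul h2
  convert this using 1
  ring

include hbal hI in
theorem aux_mem_O : f ^ D.e i * (algebraMap K F D.π)⁻¹ ^ α i ∈ D.O := by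
  refine MDatum.mem_O.2 fun j => ?_
  have := aux_ge C hI (i := i) j
  refine this.mem ?_
  have : ((α i * D.e j : ℕ) : ℤ) ≤ ((α j * D.e i : ℕ) : ℤ) := by exact_mod_cast hbal j
  push_cast at this
  linarith

include hI in
/-- the reduction of `Y` on `Z_i` is `ψ^{e_i} κ_i^{α_i}` -/
theorem aux_redF :
    D.redF i (f ^ D.e i * (algebraMap K F D.π)⁻¹ ^ α i) =
      (C.W i).sym (α i) f ^ D.e i * C.κ i ^ α i := by
  rw [← C.W_redF, ← DVal.sym_zero_eq]
  have hge : (C.W i).Ge ((α i : ℤ) * (-(D.e i : ℤ))) ((algebraMap K F D.π)⁻¹ ^ α i) :=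
    (C.ge_π_inv i).pow (α i)
  have h1 := DVal.sym_mul ((hI i).pow (D.e i)) hge
  rw [DVal.sym_pow (hI i), C.sym_π_inv_pow] at h1
  have e0 : (D.e i : ℤ) * (α i : ℤ) + (α i : ℤ) * (-(D.e i : ℤ)) = 0 := by ring
  rw [e0] at h1
  exact h1

include hbal hf hI in
/-- **the untwisted bounds** on the symbol `ψ = sym_i (α i) f` -/
theorem untwisted_bounds (hψ : (C.W i).sym (α i) f ≠ 0) :
    (∀ v : Place k (Fk i), 0 ≤ (D.e i : ℤ) * (v.ord ((C.W i).sym (α i) f) + D.chartDiv i a b v) +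
        (α i : ℤ) * v.ord (C.κ i)) ∧
      ∀ c, (∑ j, ((D.e i : ℤ) * α j - α i * D.e j) * (D.w i j : ℤ)) ≤
        (D.e i : ℤ) * (D.x i c).ord ((C.W i).sym (α i) f) + (α i : ℤ) * (D.x i c).ord (C.κ i) := by
  have hY𝓛 := aux_mem_𝓛 C hf (i := i) (α := α)
  have hYO := aux_mem_O C hbal hI
  have hred := aux_redF C hI (i := i)
  have hne : (C.W i).sym (α i) f ^ D.e i * C.κ i ^ α i ≠ 0 :=
    mul_ne_zero (pow_ne_zero _ hψ) (pow_ne_zero _ (C.κ_ne_zero i))
  have hord : ∀ v : Place k (Fk i), v.ord ((C.W i).sym (α i) f ^ D.e i * C.κ i ^ α i) =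
      (D.e i : ℤ) * v.ord ((C.W i).sym (α i) f) + (α i : ℤ) * v.ord (C.κ i) := by
    intro v
    rw [v.ord_mul (pow_ne_zero _ hψ) (pow_ne_zero _ (C.κ_ne_zero i)), ord_pow, ord_pow]
  refine ⟨fun v => ?_, fun c => ?_⟩
  · have hch := C.chart i _ _ _ hY𝓛 hYO
    rw [hred] at hch
    have := (mem_rr_of_ne hne).1 hch v
    rw [hord, chartDiv_mul] at this
    linarith
  · -- (MULT)
    set β : ι → ℕ := fun j => D.e i * α j - α i * D.e j with hβ
    have hβc : ∀ j, ((β j : ℕ) : ℤ) = (D.e i : ℤ) * α j - α i * D.e j := by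
      intro j
      have h1 : α i * D.e j ≤ D.e i * α j := by rw [mul_comm (D.e i)]; exact hbal j
      rw [hβ]
      push_cast [Nat.cast_sub h1]
      ring
    have hβi : β i = 0 := by
      rw [hβ]
      show D.e i * α i - α i * D.e i = 0
      rw [mul_comm]; exact Nat.sub_self _
    have hGe : ∀ j, D.Ge j (β j) (f ^ D.e i * (algebraMap K F D.π)⁻¹ ^ α i) := by
      intro j
      rw [← C.W_ge_iff, hβc]
      exact aux_ge C hI j
    rcases C.mult i _ _ _ hY𝓛 β hβi hGe c with h0 | hle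
    · rw [hred] at h0
      exact absurd h0 hne
    · rw [hred, hord] at hle
      calc (∑ j, ((D.e i : ℤ) * α j - α i * D.e j) * (D.w i j : ℤ))
          = ∑ j, ((β j : ℕ) : ℤ) * (D.w i j : ℤ) :=
            Finset.sum_congr rfl fun j _ => by rw [hβc]
        _ ≤ _ := hle

end Untwisted

/-! ### the twisted bounds (Kummer families) -/

section Twisted

variable {n : ℕ} {z : F} (E : KummerFamily D g n z)
  {i : ι} {a a' : ℕ} {α : ι → ℕ} (hbal : ∀ j, α i * D.e j ≤ α j * D.e i) {h : F}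
  (hh : h ∈ E.𝓔 a a') (hI : C.I (fun j => (α j : ℤ)) h)

include hbal hh hI in
/-- **the twisted bounds**: the symbols of a Kummer family of a multi-unit satisfy the same bounds
as those of the base family. -/
theorem kummer_bounds (hn : n ≠ 0) {b : ι → k} (hz : IsMultiUnit D z b)
    (hψ : (C.W i).sym (α i) h ≠ 0) :
    (∀ v : Place k (Fk i), 0 ≤ (D.e i : ℤ) * (v.ord ((C.W i).sym (α i) h) + D.chartDiv i a a' v) +
        (α i : ℤ) * v.ord (C.κ i)) ∧
      ∀ c, (∑ j, ((D.e i : ℤ) * α j - α i * D.e j) * (D.w i j : ℤ)) ≤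
        (D.e i : ℤ) * (D.x i c).ord ((C.W i).sym (α i) h) + (α i : ℤ) * (D.x i c).ord (C.κ i) := by
  have hnpos : 0 < n := Nat.pos_of_ne_zero hn
  have hnZ : (0 : ℤ) < n := by exact_mod_cast hnpos
  -- the function `f = hⁿ z`
  have hf : h ^ n * z ∈ D.𝓛 (n * a) (n * a') := by
    have := E.mixed_mem hh hh
    rw [← pow_succ', Nat.sub_add_cancel hnpos] at this
    have e1 : a + (n - 1) * a = n * a := by
      calc a + (n - 1) * a = ((n - 1) + 1) * a := by ring
        _ = n * a := by rw [Nat.sub_add_cancel hnpos]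
    have e2 : a' + (n - 1) * a' = n * a' := by
      calc a' + (n - 1) * a' = ((n - 1) + 1) * a' := by ring
        _ = n * a' := by rw [Nat.sub_add_cancel hnpos]
    rwa [e1, e2] at this
  have hzO : z ∈ D.O := isMultiUnit_mem_O hz
  have hIf : C.I (fun j => ((n * α j : ℕ) : ℤ)) (h ^ n * z) := by
    have := (hI.pow n).mul_mem_O hzO
    intro j
    have hj := this j
    simp only [Nat.cast_mul]
    exact hj
  have hbal' : ∀ j, (n * α i) * D.e j ≤ (n * α j) * D.e i := by
    intro j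
    rw [Nat.mul_assoc, Nat.mul_assoc]
    exact Nat.mul_le_mul_left n (hbal j)
  have hsym : (C.W i).sym ((n * α i : ℕ) : ℤ) (h ^ n * z) =
      (C.W i).sym (α i) h ^ n * algebraMap k (Fk i) (b i) := by
    have h1 := DVal.sym_mul_mem ((hI i).pow n) (MDatum.mem_O.1 hzO i)
    rw [DVal.sym_pow (hI i), C.W_redF, hz.red i] at h1
    simp only [Nat.cast_mul]
    exact h1
  have hbi : algebraMap k (Fk i) (b i) ≠ 0 := (map_ne_zero _).2 (hz.b_ne i)
  have hψ' : (C.W i).sym ((n * α i : ℕ) : ℤ) (h ^ n * z) ≠ 0 := by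
    rw [hsym]
    exact mul_ne_zero (pow_ne_zero _ hψ) hbi
  obtain ⟨B1, B2⟩ := untwisted_bounds C (α := fun j => n * α j) hbal' hf hIf hψ'
  have hord : ∀ v : Place k (Fk i),
      v.ord ((C.W i).sym ((n * α i : ℕ) : ℤ) (h ^ n * z)) = (n : ℤ) * v.ord ((C.W i).sym (α i) h) := by
    intro v
    rw [hsym, v.ord_mul (pow_ne_zero _ hψ) hbi, ord_pow, ord_const, add_zero]
  refine ⟨fun v => ?_, fun c => ?_⟩
  · have := B1 v
    rw [hord, chartDiv_mul] at this
    push_cast at this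
    have e : (D.e i : ℤ) * ((n : ℤ) * v.ord ((C.W i).sym (α i) h) + (n : ℤ) * D.chartDiv i a a' v) +
        (n : ℤ) * (α i : ℤ) * v.ord (C.κ i) =
        (n : ℤ) * ((D.e i : ℤ) * (v.ord ((C.W i).sym (α i) h) + D.chartDiv i a a' v) +
          (α i : ℤ) * v.ord (C.κ i)) := by ring
    rw [e] at this
    exact nonneg_of_mul_nonneg_right this hnZ
  · have := B2 c
    rw [hord] at this
    push_cast at this
    have e1 : (∑ j, ((D.e i : ℤ) * ((n : ℤ) * (α j : ℤ)) - (n : ℤ) * (α i : ℤ) * (D.e j : ℤ)) *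
        (D.w i j : ℤ)) =
        (n : ℤ) * ∑ j, ((D.e i : ℤ) * α j - α i * D.e j) * (D.w i j : ℤ) := by
      rw [Finset.mul_sum]
      exact Finset.sum_congr rfl fun j _ => by ring
    have e2 : (D.e i : ℤ) * ((n : ℤ) * (D.x i c).ord ((C.W i).sym (α i) h)) +
        (n : ℤ) * (α i : ℤ) * (D.x i c).ord (C.κ i) =
        (n : ℤ) * ((D.e i : ℤ) * (D.x i c).ord ((C.W i).sym (α i) h) +
          (α i : ℤ) * (D.x i c).ord (C.κ i)) := by ring
    rw [e1, e2] at this
    exact le_of_mul_le_mul_left this hnZ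

end Twisted

end Fermat.Agent.S45lib.G
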