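/-
S45lib / G / Distinct  (helper3)  --  Project J, Tower/Places: DISTINCTNESS of the `k + 1` places

Abstract statements on `S36lib.Norm.Place`s (main + Mathlib only).

* `place_O_ne_of_redF` : two places of `F`, an element `z` integral at both, with reduction `0` at
  the first and `≠ 0` at the second ⇒ the valuation rings are different;
* `places_ne_of_table` : a family of places `P b` (`b : ι`) of `F` with residue fields embedded in
  a common field `Ω` (`emb b : κ b →+* Ω`; e.g. `Ω = k((t))` for the raw Gauss places, or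
  `emb b = id` for the normalised ones), two elements `x y` integral at every `P b` with
      `red_b x = J ^ q ^ u b`,   `red_b y = J ^ q ^ v b`
  where `J ∈ Ω` has pairwise different powers, `1 < q`, and `b ↦ (u b : ℤ) - v b` is injective
  (`huv`) ⇒ the valuation rings `(P b).O` are pairwise different.
  Witness: `z = x ^ q ^ v b - y ^ q ^ u b`.
  In the tower: `x = j(z)`, `y = j(q^k z)`; raw table `u b = b`, `v b = k - b`
  (`raw_table_inj`), normalised table `u b = (2b - k)⁺`, `v b = (k - 2b)⁺` (`norm_table_inj`);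
* `pow_injective_of_order_ne_zero` : a Laurent series of nonzero order has pairwise different
  powers (`J = j̄(t)`, order `-1`); `pow_injective_of_transcendental` : same for a transcendental
  element (`J = j̄ ∈ FRes A M`).
-/
import Mathlib
import Fermat.Agent.S36lib.Norm.Place

set_option autoImplicit false

noncomputable section

namespace Fermat.Agent.S45lib.G

open Fermat.Agent.S36lib.Norm

section One

variable {F : Type*} [Field F] {κ κ' : Type*} [Field κ] [Field κ']

/-- an element with reduction `0` at `P` and `≠ 0` at `P'` separates the two valuation rings -/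
theorem place_O_ne_of_redF (P : Place F κ) (P' : Place F κ') {z : F} (hz : z ∈ P.O)
    (hz' : z ∈ P'.O) (h0 : P.redF z = 0) (h1 : P'.redF z ≠ 0) : P.O ≠ P'.O := by
  intro h
  have h2 : P.O.valuation z < 1 := (P.redF_eq_zero_iff hz).1 h0
  have h3 : P'.O.valuation z = 1 := (P'.redF_ne_zero_iff hz').1 h1
  -- `z` is a unit of `P'.O = P.O`
  have hz0 : z ≠ 0 := by
    rintro rfl
    rw [map_zero] at h3
    exact zero_ne_one h3
  have h4 : z⁻¹ ∈ P'.O := by
    rw [← ValuationSubring.valuation_le_one_iff, map_inv₀, h3, inv_one]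
  rw [← h] at h4
  have h5 : P.O.valuation z⁻¹ ≤ 1 := (P.O.valuation_le_one_iff _).2 h4
  rw [map_inv₀] at h5
  have hpos : 0 < P.O.valuation z := zero_lt_iff.2 ((Valuation.ne_zero_iff _).2 hz0)
  have h6 : 1 ≤ P.O.valuation z := (inv_le_one₀ hpos).1 h5
  exact absurd h2 (not_lt.2 h6)

end One

section Table

variable {F Ω : Type*} [Field F] [Field Ω]
variable {ι : Type*} {κ : ι → Type*} [∀ b, Field (κ b)]

/-- **distinctness from the reduction table of two functions** -/
theorem places_ne_of_table (P : ∀ b, Place F (κ b)) (emb : ∀ b, κ b →+* Ω) (x y : F) (J : Ω)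
    (q : ℕ) (hq : 1 < q) (hJ : ∀ m n : ℕ, J ^ m = J ^ n → m = n) (u v : ι → ℕ)
    (hx : ∀ b, x ∈ (P b).O) (hy : ∀ b, y ∈ (P b).O)
    (hrx : ∀ b, emb b ((P b).redF x) = J ^ q ^ u b)
    (hry : ∀ b, emb b ((P b).redF y) = J ^ q ^ v b)
    (huv : ∀ b b', b ≠ b' → u b' + v b ≠ v b' + u b) :
    ∀ b b', b ≠ b' → (P b).O ≠ (P b').O := by
  intro b b' hbb'
  set z : F := x ^ q ^ v b - y ^ q ^ u b with hzdef
  have hzmem : ∀ c, z ∈ (P c).O := fun c =>
    (P c).O.sub_mem ((P c).O.pow_mem (hx c) _) ((P c).O.pow_mem (hy c) _)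
  have hred : ∀ c, emb c ((P c).redF z) =
      J ^ (q ^ u c * q ^ v b) - J ^ (q ^ v c * q ^ u b) := by
    intro c
    rw [hzdef, (P c).redF_sub ((P c).O.pow_mem (hx c) _) ((P c).O.pow_mem (hy c) _),
      (P c).redF_pow (hx c), (P c).redF_pow (hy c), map_sub, map_pow, map_pow, hrx c, hry c,
      ← pow_mul, ← pow_mul]
  refine place_O_ne_of_redF (P b) (P b') (hzmem b) (hzmem b') ?_ ?_
  · apply (emb b).injective
    rw [hred b, map_zero, mul_comm, sub_self]
  · intro h0
    have h1 := hred b'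
    rw [h0, map_zero] at h1
    have h2 := hJ _ _ (sub_eq_zero.1 h1.symm)
    rw [← pow_add, ← pow_add] at h2
    exact huv b b' hbb' (Nat.pow_right_injective hq h2)

/-- the raw table (`Ω = k((t))`): `u b = b`, `v b = k - b` -/
theorem raw_table_inj {k : ℕ} (b b' : Fin (k + 1)) (h : b ≠ b') :
    (b' : ℕ) + (k - (b : ℕ)) ≠ (k - (b' : ℕ)) + (b : ℕ) := by
  have h1 := b.2
  have h2 := b'.2
  have h3 : (b : ℕ) ≠ (b' : ℕ) := fun h' => h (Fin.ext h')
  omega

/-- the normalised table (`κ = FRes A M`): `u b = (2b - k)⁺`, `v b = (k - 2b)⁺` -/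
theorem norm_table_inj {k : ℕ} (b b' : Fin (k + 1)) (h : b ≠ b') :
    (2 * (b' : ℕ) - k) + (k - 2 * (b : ℕ)) ≠ (k - 2 * (b' : ℕ)) + (2 * (b : ℕ) - k) := by
  have h1 := b.2
  have h2 := b'.2
  have h3 : (b : ℕ) ≠ (b' : ℕ) := fun h' => h (Fin.ext h')
  omega

/-- **distinctness from the RAW table**: `red_b x = J ^ q ^ b`, `red_b y = J ^ q ^ (k - b)` -/
theorem places_ne_of_raw_table {k : ℕ} {κ : Fin (k + 1) → Type*} [∀ b, Field (κ b)]
    (P : ∀ b, Place F (κ b)) (emb : ∀ b, κ b →+* Ω) (x y : F) (J : Ω)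
    (q : ℕ) (hq : 1 < q) (hJ : ∀ m n : ℕ, J ^ m = J ^ n → m = n)
    (hx : ∀ b, x ∈ (P b).O) (hy : ∀ b, y ∈ (P b).O)
    (hrx : ∀ b, emb b ((P b).redF x) = J ^ q ^ (b : ℕ))
    (hry : ∀ b, emb b ((P b).redF y) = J ^ q ^ (k - (b : ℕ))) :
    ∀ b b', b ≠ b' → (P b).O ≠ (P b').O :=
  places_ne_of_table P emb x y J q hq hJ (fun b => (b : ℕ)) (fun b => k - (b : ℕ)) hx hy hrx hry
    raw_table_inj

/-- **distinctness from the NORMALISED table**: `red_b x = J ^ q ^ (2b - k)`,
`red_b y = J ^ q ^ (k - 2b)` (truncated subtractions) -/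
theorem places_ne_of_norm_table {k : ℕ} {κ : Fin (k + 1) → Type*} [∀ b, Field (κ b)]
    (P : ∀ b, Place F (κ b)) (emb : ∀ b, κ b →+* Ω) (x y : F) (J : Ω)
    (q : ℕ) (hq : 1 < q) (hJ : ∀ m n : ℕ, J ^ m = J ^ n → m = n)
    (hx : ∀ b, x ∈ (P b).O) (hy : ∀ b, y ∈ (P b).O)
    (hrx : ∀ b, emb b ((P b).redF x) = J ^ q ^ (2 * (b : ℕ) - k))
    (hry : ∀ b, emb b ((P b).redF y) = J ^ q ^ (k - 2 * (b : ℕ))) :
    ∀ b b', b ≠ b' → (P b).O ≠ (P b').O :=
  places_ne_of_table P emb x y J q hq hJ (fun b => 2 * (b : ℕ) - k) (fun b => k - 2 * (b : ℕ))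
    hx hy hrx hry norm_table_inj

end Table

section PowInj

/-- a Laurent series of nonzero order has pairwise different powers -/
theorem pow_injective_of_order_ne_zero {k : Type*} [Field k] {J : LaurentSeries k}
    (hJ : J.order ≠ 0) : ∀ m n : ℕ, J ^ m = J ^ n → m = n := by
  intro m n h
  have h1 := congrArg HahnSeries.order h
  rw [HahnSeries.order_pow, HahnSeries.order_pow] at h1
  simp only [nsmul_eq_mul] at h1
  have h2 : ((m : ℤ) - n) * J.order = 0 := by linear_combination h1
  rcases mul_eq_zero.1 h2 with h3 | h3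
  · have : (m : ℤ) = n := by linarith
    exact_mod_cast this
  · exact absurd h3 hJ

/-- a transcendental element has pairwise different powers -/
theorem pow_injective_of_transcendental {k Ω : Type*} [Field k] [Field Ω] [Algebra k Ω] {J : Ω}
    (hJ : Transcendental k J) : ∀ m n : ℕ, J ^ m = J ^ n → m = n := by
  intro m n h
  by_contra hmn
  apply hJ
  refine ⟨Polynomial.X ^ m - Polynomial.X ^ n, ?_, ?_⟩
  · intro h0
    have h1 := congrArg (fun p : Polynomial k => p.coeff m) h0
    simp only [Polynomial.coeff_sub, Polynomial.coeff_X_pow, Polynomial.coeff_zero, if_true] at h1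
    rw [if_neg hmn] at h1
    simp at h1
  · simp [h]

end PowInj

end Fermat.Agent.S45lib.G
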