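/-
S45lib / G / Toric  (helper3)  --  consumer lemmas on twists (Project J, (G) → CHAIN_k)

On top of `G/Twist.lean` (interface: helper6's `MThick/Datum.lean`):

* `isTwist_rescale`   : a twist may be rescaled at every multi-point (`lam c i ↦ μ c * lam c i`);
* `isTwist_normalize` : `lam c i / lam c i₀` is again a twist (normalised at `i₀`);
* `isTwist_const_of_ratio` : if the ratios `lam c i / lam c i₀ = A i` do not depend on the
  multi-point, `fun _ => A` is a twist (the hypothesis of `CoreStatement`);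
* `twist_pow_of_exists_one` : the normalised twist of `z ^ m` is the `m`-th power of the normalised
  twist of `z` (given a function with `red i₀ = 1` and `𝓔(z)^m ⊆ 𝓔(z^m)`);
* `twist_ne_zero_of_exists_one` : a twist is nowhere zero as soon as it is nonzero on `i₀`
  (given the nondegenerate function) -- `lam c i ^ n · b i = lam c i₀ ^ n · b i₀`.
-/
import Mathlib
import Fermat.Agent.S45lib.G.Twist

set_option autoImplicit false
set_option linter.unusedSectionVars false

noncomputable section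

namespace Fermat.Agent.S45lib.G

open AlgebraicCurve Module
open Fermat.Agent.LSb (HasValueAt)
open Fermat.Agent.LSb.Core (valAt)
open Fermat.Agent.S45lib.MThick

variable {K : Type*} [Field K] {R : ValuationSubring K}
variable {F : Type*} [Field F] [Algebra K F]
variable {ι : Type*} {Fk : ι → Type*} [∀ i, Field (Fk i)]
variable [∀ i, Algebra (IsLocalRing.ResidueField R) (Fk i)]

local notation "k" => IsLocalRing.ResidueField R

variable {D : MDatum R F ι Fk} {g n : ℕ}

/-- a twist may be rescaled at every multi-point -/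
theorem isTwist_rescale {z : F} {E : KummerFamily D g n z} {lam : Fin D.s → ι → k}
    (ht : IsTwist D E lam) {μ : Fin D.s → k} (hμ : ∀ c, μ c ≠ 0) :
    IsTwist D E (fun c i => μ c * lam c i) := by
  intro a b h hh hO c
  obtain ⟨α, hα⟩ := ht a b h hh hO c
  refine ⟨(μ c)⁻¹ * α, fun i => ?_⟩
  have e : μ c * lam c i * ((μ c)⁻¹ * α) = lam c i * α := by
    field_simp [hμ c]
  rw [e]
  exact hα i

/-- the twist normalised at `i₀` -/
theorem isTwist_normalize {z : F} {E : KummerFamily D g n z} {lam : Fin D.s → ι → k}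
    (ht : IsTwist D E lam) {i₀ : ι} (h0 : ∀ c, lam c i₀ ≠ 0) :
    IsTwist D E (fun c i => lam c i / lam c i₀) := by
  have := isTwist_rescale ht (μ := fun c => (lam c i₀)⁻¹) (fun c => inv_ne_zero (h0 c))
  intro a b h hh hO c
  obtain ⟨α, hα⟩ := this a b h hh hO c
  refine ⟨α, fun i => ?_⟩
  have e : lam c i / lam c i₀ = (lam c i₀)⁻¹ * lam c i := by rw [div_eq_mul_inv, mul_comm]
  show HasValueAt (D.x i c) (D.redF i h) (lam c i / lam c i₀ * α)
  rw [e]
  exact hα i

/-- **constant ratios ⇒ constant twist** (the hypothesis of `CoreStatement`) -/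
theorem isTwist_const_of_ratio {z : F} {E : KummerFamily D g n z} {lam : Fin D.s → ι → k}
    (ht : IsTwist D E lam) {i₀ : ι} (h0 : ∀ c, lam c i₀ ≠ 0) {A : ι → k}
    (hA : ∀ c i, lam c i / lam c i₀ = A i) : IsTwist D E (fun _ => A) := by
  have := isTwist_normalize ht h0
  intro a b h hh hO c
  obtain ⟨α, hα⟩ := this a b h hh hO c
  refine ⟨α, fun i => ?_⟩
  have h1 : HasValueAt (D.x i c) (D.redF i h) (lam c i / lam c i₀ * α) := hα i
  rwa [hA c i] at h1

/-- **the twist of a power**: for Kummer families `E` of `z` and `E'` of `z ^ m` with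
`𝓔(z)^m ⊆ 𝓔(z^m)`, the normalised twist of `z ^ m` is the `m`-th power of that of `z`
(given a function with `red i₀ = 1` in `𝓔(z)`). -/
theorem twist_pow_of_exists_one {z : F} {m : ℕ} {E : KummerFamily D g n z}
    {E' : KummerFamily D g n (z ^ m)}
    (hpow : ∀ {a b : ℕ} {h : F}, h ∈ E.𝓔 a b → h ^ m ∈ E'.𝓔 (m * a) (m * b))
    {lam lam' : Fin D.s → ι → k} (ht : IsTwist D E lam) (ht' : IsTwist D E' lam') {i₀ : ι}
    (hone : ∃ a b : ℕ, ∃ f ∈ E.𝓔 a b, f ∈ D.O ∧ D.redF i₀ f = 1) (c : Fin D.s) (i : ι) :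
    lam' c i / lam' c i₀ = (lam c i / lam c i₀) ^ m := by
  obtain ⟨a, b, f, hf, hO, h1⟩ := hone
  have hO' : f ^ m ∈ D.O := D.O.pow_mem hO m
  have h1' : D.redF i₀ (f ^ m) = 1 := by
    rw [redF_eq, (placeOf D i₀).redF_pow (mem_V_of_mem_O D hO i₀), ← redF_eq, h1, one_pow]
  have v := twist_hasValueAt_of_red_eq_one ht hf hO h1 c i
  have v' := twist_hasValueAt_of_red_eq_one ht' (hpow hf) hO' h1' c i
  rw [redF_eq, (placeOf D i).redF_pow (mem_V_of_mem_O D hO i), ← redF_eq] at v'
  exact v'.unique (v.pow m)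

/-- the nondegenerate witness of `z ^ m` -/
theorem exists_one_pow {z : F} {m : ℕ} {E : KummerFamily D g n z}
    {E' : KummerFamily D g n (z ^ m)}
    (hpow : ∀ {a b : ℕ} {h : F}, h ∈ E.𝓔 a b → h ^ m ∈ E'.𝓔 (m * a) (m * b)) {i₀ : ι}
    (hone : ∃ a b : ℕ, ∃ f ∈ E.𝓔 a b, f ∈ D.O ∧ D.redF i₀ f = 1) :
    ∃ a b : ℕ, ∃ f ∈ E'.𝓔 a b, f ∈ D.O ∧ D.redF i₀ f = 1 := by
  obtain ⟨a, b, f, hf, hO, h1⟩ := hone
  refine ⟨m * a, m * b, f ^ m, hpow hf, D.O.pow_mem hO m, ?_⟩
  rw [redF_eq, (placeOf D i₀).redF_pow (mem_V_of_mem_O D hO i₀), ← redF_eq, h1, one_pow]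

/-- **the `n`-th power relation**: for a multi-unit `z` with residues `b`, a twist normalised
through a nondegenerate function satisfies `b i · (lam c i / lam c i₀)ⁿ = b i₀`. -/
theorem twist_pow_n_of_exists_one (hdeg : ∀ i c, (D.x i c).deg = 1) (glue : GlueR D)
    (hn : n ≠ 0) {z : F} {E : KummerFamily D g n z} {b : ι → k} (hz : IsMultiUnit D z b)
    {lam : Fin D.s → ι → k} (ht : IsTwist D E lam) {i₀ : ι}
    (hone : ∃ a a' : ℕ, ∃ f ∈ E.𝓔 a a', f ∈ D.O ∧ D.redF i₀ f = 1) (c : Fin D.s) (i : ι) :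
    b i * (lam c i / lam c i₀) ^ n = b i₀ := by
  obtain ⟨a, a', f, hf, hO, h1⟩ := hone
  obtain ⟨α, hα⟩ := glue_pow hdeg glue hn E hz hf hO c
  have v := twist_hasValueAt_of_red_eq_one ht hf hO h1 c i
  have e1 : valAt (D.x i c) (D.redF i f) = lam c i / lam c i₀ :=
    Fermat.Agent.S36lib.Thick.valAt_eq_of_hasValueAt v
  have e0 : valAt (D.x i₀ c) (D.redF i₀ f) = 1 := by
    rw [h1]
    exact Fermat.Agent.LSb.Core.valAt_one _
  have hi := (hα i).2
  have hi₀ := (hα i₀).2
  rw [e1] at hi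
  rw [e0, one_pow, mul_one] at hi₀
  rw [hi, hi₀]

end Fermat.Agent.S45lib.G
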