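/-
S45lib / G / Start  (helper3)  --  THE START of the deformation, multi-component form
(Project J, (G); interface: helper6's `MThick/Datum.lean`, `MThick/Basic.lean`)

For a Kummer family `𝓔` of a multi-unit `z` with CONSTANT twist `lam₀ : ι → k`, every chart
`𝓔 a a'` for which the FIRST LAYER of the schedule lifts (`LayerLift`) contains a function `t ∈ O`
with the reference reductions  `red_i t = lam₀ i / lam₀ i₀`  (constants) on ALL components, where
`i₀` is the first component of the schedule `L = [i₀, i₁, …]`.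

Proof = induction along `L` with single-component steps only (also at TANGENT branches): if
`red_j t = ρ_j` for the components `j ∈ S` already treated, then `f = tⁿ z − β` (`β = b_j ρ_jⁿ`,
independent of `j`) lies in `𝓛 (n a) (n a') ∩ I(1_S)`, so by (MULT) (`G.untwisted_bounds`) its reduction
`b_i (φⁿ − ρ_iⁿ)` on the next component `i` vanishes to order `Σ_{j ∈ S} w i j` at the multi-points;
since `n ≠ 0` in `k` and `φ(x) = ρ_i ≠ 0`, so does `φ − ρ_i`; lift it (`LayerLift`) and subtract.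

`LayerLift D E a a' S i` is the COUNT-equality of the core for the first-layer step
(`α = 1_S`, component `i ∉ S`); it is the only input from the filtration machinery.
-/
import Mathlib
import Fermat.Agent.S45lib.G.Bounds
import Fermat.Agent.S45lib.G.Toric
import Fermat.Agent.S36lib.Thick.Start

set_option autoImplicit false
set_option linter.unusedSectionVars false

noncomputable section

namespace Fermat.Agent.S45lib.G

open AlgebraicCurve Module
open Fermat.Agent.LSb (HasValueAt hasValueAt_const hasValueAt_one)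
open Fermat.Agent.LSb.Core (lin2 lin2_apply lin2_nonneg valAt)
open Fermat.Agent.S18lib.Cech (mem_rr_iff mem_rr_of_ne ord_pow ord_const const_mem_rr one_mem_rr)
open Fermat.Agent.S36lib.Thick (DVal hasValueAt_geom_sum)
open Fermat.Agent.S45lib.MThick

/-! ### a function field lemma: `φ − ρ` vanishes as much as `b φⁿ − b ρⁿ` -/

section Curve

variable {k Fk : Type*} [Field k] [Field Fk] [Algebra k Fk]

/-- if `φ` has the value `ρ ≠ 0` at `x` and `n ≠ 0` in `k`, then `φ − ρ` vanishes at `x` to the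
same order as `b φⁿ − b ρⁿ` -/
theorem sub_eq_zero_or_le_ord_of_pow {x : Place k Fk} {φ : Fk} {ρ b : k} {s : ℕ}
    (hs : ((s + 1 : ℕ) : k) ≠ 0) (hρ : ρ ≠ 0) (hb : b ≠ 0) (hφ : HasValueAt x φ ρ) {N : ℤ}
    (h : algebraMap k Fk b * φ ^ (s + 1) - algebraMap k Fk (b * ρ ^ (s + 1)) = 0 ∨
      N ≤ x.ord (algebraMap k Fk b * φ ^ (s + 1) - algebraMap k Fk (b * ρ ^ (s + 1)))) :
    φ - algebraMap k Fk ρ = 0 ∨ N ≤ x.ord (φ - algebraMap k Fk ρ) := by
  rcases eq_or_ne (φ - algebraMap k Fk ρ) 0 with h0 | h0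
  · exact Or.inl h0
  right
  set S := ∑ i ∈ Finset.range (s + 1), φ ^ i * algebraMap k Fk ρ ^ (s - i) with hS
  have hSv : HasValueAt x S (((s + 1 : ℕ) : k) * ρ ^ s) :=
    hasValueAt_geom_sum hφ (hasValueAt_const ρ) s
  have hv0 : ((s + 1 : ℕ) : k) * ρ ^ s ≠ 0 := mul_ne_zero hs (pow_ne_zero _ hρ)
  have hS0 : S ≠ 0 := hSv.ne_zero hv0
  have hSord : x.ord S = 0 := hSv.ord_eq_zero hv0
  have hgeom : S * (φ - algebraMap k Fk ρ) = φ ^ (s + 1) - algebraMap k Fk ρ ^ (s + 1) := by
    have := (Commute.all φ (algebraMap k Fk ρ)).geom_sum₂_mul (s + 1)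
    simpa using this
  have e : algebraMap k Fk b * φ ^ (s + 1) - algebraMap k Fk (b * ρ ^ (s + 1)) =
      algebraMap k Fk b * (S * (φ - algebraMap k Fk ρ)) := by
    rw [hgeom, map_mul, map_pow]; ring
  have hb0 : algebraMap k Fk b ≠ 0 := (map_ne_zero _).2 hb
  have hne : algebraMap k Fk b * (S * (φ - algebraMap k Fk ρ)) ≠ 0 :=
    mul_ne_zero hb0 (mul_ne_zero hS0 h0)
  rw [e] at h
  rcases h with h | h
  · exact absurd h hne
  · rw [x.ord_mul hb0 (mul_ne_zero hS0 h0), x.ord_mul hS0 h0, ord_const, hSord] at h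
    linarith

end Curve

variable {K : Type*} [Field K] {R : ValuationSubring K}
variable {F : Type*} [Field F] [Algebra K F]
variable {ι : Type*} [Fintype ι] [DecidableEq ι] {Fk : ι → Type*} [∀ i, Field (Fk i)]
variable [∀ i, Algebra (IsLocalRing.ResidueField R) (Fk i)]

local notation "k" => IsLocalRing.ResidueField R

/-- **Lifting along the first layer** (= COUNT-equality of the core at the step `α = 1_S`,
component `i`): every function `ψ` on `Z_i` with poles bounded by the chart divisor and vanishing to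
order `Σ_{j ∈ S} w i j` at the multi-points is the reduction of some `h ∈ 𝓔 a a' ∩ O` vanishing on
the components of `S`. -/
def LayerLift (D : MDatum R F ι Fk) {g n : ℕ} {z : F} (E : KummerFamily D g n z) (a a' : ℕ)
    (S : Finset ι) (i : ι) : Prop :=
  ∀ ψ : Fk i, ψ ∈ riemannRochSpace (D.chartDiv i a a') →
    (∀ c, ψ = 0 ∨ (∑ j ∈ S, (D.w i j : ℤ)) ≤ (D.x i c).ord ψ) →
    ∃ h ∈ E.𝓔 a a', h ∈ D.O ∧ (∀ j ∈ S, D.redF j h = 0) ∧ D.redF i h = ψ

variable {D : MDatum R F ι Fk} {g : ℕ} {gk : ι → ℕ} (C : MCtx D g gk)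

include C in
/-- the chart divisors are effective -/
theorem chartDiv_nonneg (i : ι) (a a' : ℕ) (v : Place k (Fk i)) : 0 ≤ D.chartDiv i a a' v :=
  lin2_nonneg (C.Q₁_nonneg i) (C.Q₂_nonneg i) (Int.natCast_nonneg a) (Int.natCast_nonneg a') v

include C in
/-- the reduction of a function of a Kummer chart lies in the reduced chart -/
theorem kummer_chart {n : ℕ} (hn : n ≠ 0) {z : F} (E : KummerFamily D g n z) {b : ι → k}
    (hz : IsMultiUnit D z b) {a a' : ℕ} {h : F} (hh : h ∈ E.𝓔 a a') (hO : h ∈ D.O) (i : ι) :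
    D.redF i h ∈ riemannRochSpace (D.chartDiv i a a') := by
  rcases eq_or_ne (D.redF i h) 0 with h0 | h0
  · rw [h0]; exact Submodule.zero_mem _
  have hI : C.I (fun _ => ((0 : ℕ) : ℤ)) h := by
    have := (C.I_zero_iff).2 hO
    intro j
    simpa using this j
  have hψ : (C.W i).sym ((0 : ℕ) : ℤ) h ≠ 0 := by
    rw [Nat.cast_zero, DVal.sym_zero_eq, C.W_redF]; exact h0
  obtain ⟨B1, -⟩ := kummer_bounds C E (i := i) (α := fun _ => 0) (fun j => by simp) hh hI hn hz hψ
  rw [mem_rr_of_ne h0]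
  intro v
  have := B1 v
  rw [Nat.cast_zero, DVal.sym_zero_eq, C.W_redF, zero_mul, add_zero] at this
  have he : (0 : ℤ) < D.e i := by exact_mod_cast C.e_pos i
  have := nonneg_of_mul_nonneg_right this he
  linarith

/-- the indicator multi-index of a finite set of components -/
def indic (S : Finset ι) : ι → ℕ := fun j => if j ∈ S then 1 else 0

omit [Fintype ι] in
theorem indic_of_mem {S : Finset ι} {j : ι} (h : j ∈ S) : indic S j = 1 := if_pos h
omit [Fintype ι] in
theorem indic_of_not_mem {S : Finset ι} {j : ι} (h : j ∉ S) : indic S j = 0 := if_neg h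

include C in
/-- a function of `O` whose reductions vanish on the components of `S` lies in `I(1_S)` -/
theorem I_indic_of_redF_eq_zero {S : Finset ι} {f : F} (hO : f ∈ D.O)
    (h0 : ∀ j ∈ S, D.redF j f = 0) : C.I (fun j => (indic S j : ℤ)) f := by
  intro j
  have hj : (C.W j).Ge 0 f := (C.W j).ge_zero_iff.2 (MDatum.mem_O.1 hO j)
  by_cases hjS : j ∈ S
  · have : (C.W j).Ge (0 + 1) f := (DVal.ge_succ_iff).2
      ⟨hj, by rw [DVal.sym_zero_eq, C.W_redF]; exact h0 j hjS⟩
    simpa [indic_of_mem hjS] using this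
  · simpa [indic_of_not_mem hjS] using hj

include C in
/-- **one step of the start**: a reference function on the components of `S` can be corrected to a
reference function on `S ∪ {i}`. -/
theorem start_step {n : ℕ} (hn : (n : k) ≠ 0) {z : F} (E : KummerFamily D g n z) {b : ι → k}
    (hz : IsMultiUnit D z b) {lam₀ : ι → k} (hT : IsTwist D E (fun _ => lam₀)) {i₀ : ι}
    (hpow : ∀ i, b i * (lam₀ i / lam₀ i₀) ^ n = b i₀)
    {a a' : ℕ} {S : Finset ι} (hi₀ : i₀ ∈ S) {i : ι} (hiS : i ∉ S)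
    (hlift : LayerLift D E a a' S i) {t : F} (htE : t ∈ E.𝓔 a a') (htO : t ∈ D.O)
    (htS : ∀ j ∈ S, D.redF j t = algebraMap k (Fk j) (lam₀ j / lam₀ i₀)) :
    ∃ t' ∈ E.𝓔 a a', t' ∈ D.O ∧
      ∀ j ∈ insert i S, D.redF j t' = algebraMap k (Fk j) (lam₀ j / lam₀ i₀) := by
  classical
  obtain ⟨s, rfl⟩ : ∃ s, n = s + 1 := by
    rcases n with _ | s
    · exact absurd (by simp) hn
    · exact ⟨s, rfl⟩
  have hn0 : s + 1 ≠ 0 := Nat.succ_ne_zero s
  set ρ : ι → k := fun j => lam₀ j / lam₀ i₀ with hρ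
  have hρi₀ : ρ i₀ = 1 := by
    have h1 := hpow i₀
    have hb := hz.b_ne i₀
    have h2 : (lam₀ i₀ / lam₀ i₀) ^ (s + 1) = 1 := by
      have : b i₀ * (lam₀ i₀ / lam₀ i₀) ^ (s + 1) = b i₀ * 1 := by rw [h1, mul_one]
      exact mul_left_cancel₀ hb this
    have h3 : lam₀ i₀ ≠ 0 := by
      intro h0
      rw [h0, div_zero, zero_pow hn0] at h2
      exact zero_ne_one h2
    show lam₀ i₀ / lam₀ i₀ = 1
    exact div_self h3
  have hρne : ∀ j, ρ j ≠ 0 := by
    intro j h0
    have := hpow j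
    rw [show lam₀ j / lam₀ i₀ = ρ j from rfl, h0, zero_pow hn0, mul_zero] at this
    exact hz.b_ne i₀ this.symm
  have hred₀ : D.redF i₀ t = 1 := by rw [htS i₀ hi₀, show lam₀ i₀ / lam₀ i₀ = ρ i₀ from rfl, hρi₀, map_one]
  -- the value of `φ = red_i t` at the multi-points
  set φ := D.redF i t with hφ
  have hφval : ∀ c, HasValueAt (D.x i c) φ (ρ i) := fun c =>
    twist_hasValueAt_of_red_eq_one hT htE htO hred₀ c i
  -- the function `f = tⁿ z − β`
  have hzO := isMultiUnit_mem_O hz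
  obtain ⟨β', hβ'⟩ := IsLocalRing.residue_surjective (b i₀)
  set βF := algebraMap K F (β' : K) with hβF
  have hβO : βF ∈ D.O := MCtx.algebraMap_mem_O β'
  set f := t ^ (s + 1) * z - βF with hf
  have htz𝓛 : t ^ (s + 1) * z ∈ D.𝓛 ((s + 1) * a) ((s + 1) * a') := by
    have h := E.mixed_mem htE htE
    rw [Nat.add_sub_cancel, ← pow_succ'] at h
    have e1 : a + s * a = (s + 1) * a := by ring
    have e2 : a' + s * a' = (s + 1) * a' := by ring
    rwa [e1, e2] at h
  have hβ𝓛 : βF ∈ D.𝓛 ((s + 1) * a) ((s + 1) * a') := by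
    have h1 : (1 : F) ∈ D.𝓛 ((s + 1) * a) ((s + 1) * a') :=
      C.mono (Nat.zero_le _) (Nat.zero_le _) C.one_mem
    have := (D.𝓛 ((s + 1) * a) ((s + 1) * a')).smul_mem (β' : K) h1
    rwa [Algebra.smul_def, mul_one] at this
  have hf𝓛 : f ∈ D.𝓛 ((s + 1) * a) ((s + 1) * a') := (D.𝓛 _ _).sub_mem htz𝓛 hβ𝓛
  have htzO : t ^ (s + 1) * z ∈ D.O := D.O.mul_mem (D.O.pow_mem htO _) hzO
  have hfO : f ∈ D.O := D.O.sub_mem htzO hβO
  have hredf : ∀ j, D.redF j f =
      D.redF j t ^ (s + 1) * algebraMap k (Fk j) (b j) - algebraMap k (Fk j) (b i₀) := by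
    intro j
    have tj := MDatum.mem_O.1 htO j
    have zj := MDatum.mem_O.1 hzO j
    rw [hf, C.redF_sub (MDatum.mem_O.1 htzO j) (MDatum.mem_O.1 hβO j),
      C.redF_mul ((D.V j).O.pow_mem tj _) zj, C.redF_pow tj, hz.red j, hβF, C.redF_algebraMap, hβ']
  have hredfS : ∀ j ∈ S, D.redF j f = 0 := by
    intro j hj
    rw [hredf j, htS j hj, ← map_pow, ← map_mul, mul_comm, hpow j, sub_self]
  have hIf := I_indic_of_redF_eq_zero C hfO hredfS
  -- the vanishing of `red_i f` at the multi-points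
  have hψf : ∀ c, D.redF i f = 0 ∨ (∑ j ∈ S, (D.w i j : ℤ)) ≤ (D.x i c).ord (D.redF i f) := by
    intro c
    rcases eq_or_ne (D.redF i f) 0 with h0 | h0
    · exact Or.inl h0
    right
    have hbal : ∀ j, indic S i * D.e j ≤ indic S j * D.e i := by
      intro j; rw [indic_of_not_mem hiS, zero_mul]; exact Nat.zero_le _
    have hψ : (C.W i).sym (indic S i) f ≠ 0 := by
      rw [indic_of_not_mem hiS, Nat.cast_zero, DVal.sym_zero_eq, C.W_redF]; exact h0
    obtain ⟨-, B2⟩ := untwisted_bounds C hbal hf𝓛 hIf hψ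
    have := B2 c
    rw [indic_of_not_mem hiS, Nat.cast_zero, DVal.sym_zero_eq, C.W_redF, zero_mul, add_zero] at this
    have he : (0 : ℤ) < D.e i := by exact_mod_cast C.e_pos i
    have hsum : (∑ j, ((D.e i : ℤ) * (indic S j : ℤ) - (0 : ℤ) * D.e j) * (D.w i j : ℤ)) =
        (D.e i : ℤ) * ∑ j ∈ S, (D.w i j : ℤ) := by
      rw [Finset.mul_sum, ← Finset.sum_filter_add_sum_filter_not Finset.univ (· ∈ S)]
      have h1 : ∑ j ∈ Finset.univ.filter (· ∈ S),
          ((D.e i : ℤ) * (indic S j : ℤ) - (0 : ℤ) * D.e j) * (D.w i j : ℤ) =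
          ∑ j ∈ S, (D.e i : ℤ) * (D.w i j : ℤ) := by
        have hfil : Finset.univ.filter (· ∈ S) = S := by ext j; simp
        rw [hfil]
        refine Finset.sum_congr rfl fun j hj => ?_
        rw [indic_of_mem hj]; push_cast; ring
      have h2 : ∑ j ∈ Finset.univ.filter (fun j => ¬ j ∈ S),
          ((D.e i : ℤ) * (indic S j : ℤ) - (0 : ℤ) * D.e j) * (D.w i j : ℤ) = 0 := by
        refine Finset.sum_eq_zero fun j hj => ?_
        rw [indic_of_not_mem (Finset.mem_filter.1 hj).2]; push_cast; ring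
      rw [h1, h2, add_zero]
    rw [hsum] at this
    exact le_of_mul_le_mul_left this he
  -- transfer to `φ − ρ_i`
  have hψ : ∀ c, φ - algebraMap k (Fk i) (ρ i) = 0 ∨
      (∑ j ∈ S, (D.w i j : ℤ)) ≤ (D.x i c).ord (φ - algebraMap k (Fk i) (ρ i)) := by
    intro c
    refine sub_eq_zero_or_le_ord_of_pow (b := b i) hn (hρne i) (hz.b_ne i) (hφval c) ?_
    have e : algebraMap k (Fk i) (b i) * φ ^ (s + 1) - algebraMap k (Fk i) (b i * ρ i ^ (s + 1)) =
        D.redF i f := by
      rw [hredf i, show b i * ρ i ^ (s + 1) = b i₀ from hpow i, mul_comm]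
    rw [e]
    exact hψf c
  -- `φ − ρ_i` lies in the reduced chart
  have hφrr : φ - algebraMap k (Fk i) (ρ i) ∈ riemannRochSpace (D.chartDiv i a a') :=
    Submodule.sub_mem _ (kummer_chart C hn0 E hz htE htO i)
      (const_mem_rr (chartDiv_nonneg C i a a') (ρ i))
  -- lift and subtract
  obtain ⟨h, hhE, hhO, hhS, hhi⟩ := hlift _ hφrr hψ
  refine ⟨t - h, (E.𝓔 a a').sub_mem htE hhE, D.O.sub_mem htO hhO, fun j hj => ?_⟩
  rw [C.redF_sub (MDatum.mem_O.1 htO j) (MDatum.mem_O.1 hhO j)]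
  rcases Finset.mem_insert.1 hj with rfl | hjS
  · rw [hhi, ← hφ]; ring
  · rw [hhS j hjS, sub_zero, htS j hjS]

include C in
/-- the induction along the schedule -/
theorem start_induction {n : ℕ} (hn : (n : k) ≠ 0) {z : F} (E : KummerFamily D g n z) {b : ι → k}
    (hz : IsMultiUnit D z b) {lam₀ : ι → k} (hT : IsTwist D E (fun _ => lam₀)) {i₀ : ι}
    (hpow : ∀ i, b i * (lam₀ i / lam₀ i₀) ^ n = b i₀) {a a' : ℕ} (L : List ι) (hnd : L.Nodup)
    (hlift : ∀ (pre : List ι) (i : ι) (post : List ι), L = pre ++ i :: post →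
      LayerLift D E a a' pre.toFinset i) :
    ∀ (post pre : List ι), L = pre ++ post → i₀ ∈ pre →
      (∃ t ∈ E.𝓔 a a', t ∈ D.O ∧
        ∀ j ∈ pre.toFinset, D.redF j t = algebraMap k (Fk j) (lam₀ j / lam₀ i₀)) →
      ∃ t ∈ E.𝓔 a a', t ∈ D.O ∧
        ∀ j ∈ L.toFinset, D.redF j t = algebraMap k (Fk j) (lam₀ j / lam₀ i₀) := by
  intro post
  induction post with
  | nil =>
    intro pre hL _ ht
    rw [List.append_nil] at hL
    rw [hL]
    exact ht
  | cons i post' ih =>
    intro pre hL hi₀ ⟨t, htE, htO, htS⟩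
    have hiS : i ∉ pre.toFinset := by
      rw [List.mem_toFinset]
      intro hi
      rw [hL] at hnd
      have := (List.nodup_append.1 hnd).2.2 i hi i (List.mem_cons_self)
      exact this rfl
    obtain ⟨t', ht'E, ht'O, ht'S⟩ := start_step C hn E hz hT hpow (List.mem_toFinset.2 hi₀) hiS
      (hlift pre i post' hL) htE htO htS
    refine ih (pre ++ [i]) (by rw [hL, List.append_assoc]; rfl) (List.mem_append_left _ hi₀)
      ⟨t', ht'E, ht'O, fun j hj => ht'S j ?_⟩
    rw [List.toFinset_append, Finset.mem_union] at hj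
    rcases hj with hj | hj
    · exact Finset.mem_insert_of_mem hj
    · rw [List.toFinset_cons, List.toFinset_nil, Finset.mem_insert] at hj
      rcases hj with rfl | hj
      · exact Finset.mem_insert_self _ _
      · exact absurd hj (Finset.notMem_empty _)

include C in
/-- **THE START OF THE DEFORMATION.**  For a Kummer family of a multi-unit with constant twist
`lam₀`, a schedule `L = i₀ :: L'` of all the components and a chart `(a, a')` along which the first
layer lifts: `lam₀ i₀ ≠ 0`, the `n`-th power relations `b i (lam₀ i / lam₀ i₀)ⁿ = b i₀` hold, and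
`𝓔 a a' ∩ O` contains a function with the reference reductions `lam₀ i / lam₀ i₀` on ALL
components. -/
theorem exists_ref_of_layerLift {n : ℕ} (hn : (n : k) ≠ 0) {z : F} (E : KummerFamily D g n z)
    {b : ι → k} (hz : IsMultiUnit D z b) {lam₀ : ι → k} (hT : IsTwist D E (fun _ => lam₀))
    {i₀ : ι} {L' : List ι} (hnd : (i₀ :: L').Nodup) (hall : ∀ i, i ∈ i₀ :: L') {a a' : ℕ}
    (hlift : ∀ (pre : List ι) (i : ι) (post : List ι), i₀ :: L' = pre ++ i :: post →
      LayerLift D E a a' pre.toFinset i) :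
    lam₀ i₀ ≠ 0 ∧ (∀ i, b i * (lam₀ i / lam₀ i₀) ^ n = b i₀) ∧
      ∃ t ∈ E.𝓔 a a', t ∈ D.O ∧ ∀ i, D.redF i t = algebraMap k (Fk i) (lam₀ i / lam₀ i₀) := by
  have hn0 : n ≠ 0 := by rintro rfl; exact hn (by simp)
  have hdeg : ∀ i c, (D.x i c).deg = 1 := fun i _ => (C.hF i).deg_eq_one _
  -- lift `1` on the first component
  obtain ⟨t₀, ht₀E, ht₀O, -, ht₀⟩ := hlift [] i₀ L' rfl 1
    (one_mem_rr (chartDiv_nonneg C i₀ a a')) (fun c => Or.inr (by
      have : (D.x i₀ c).ord (1 : Fk i₀) = 0 := by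
        have := ord_const (D.x i₀ c) (1 : k)
        rwa [map_one] at this
      rw [this]
      simp))
  have hone : ∃ a a' : ℕ, ∃ f ∈ E.𝓔 a a', f ∈ D.O ∧ D.redF i₀ f = 1 := ⟨a, a', t₀, ht₀E, ht₀O, ht₀⟩
  have c₀ : Fin D.s := ⟨0, C.s_pos⟩
  have hlam : lam₀ i₀ ≠ 0 := by
    obtain ⟨α, hα⟩ := hT a a' t₀ ht₀E ht₀O c₀
    have h1 := hα i₀
    rw [ht₀] at h1
    have e : lam₀ i₀ * α = 1 := h1.unique hasValueAt_one
    intro h0
    rw [h0, zero_mul] at e
    exact zero_ne_one e
  have hpow : ∀ i, b i * (lam₀ i / lam₀ i₀) ^ n = b i₀ := fun i =>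
    twist_pow_n_of_exists_one hdeg C.glue hn0 hz hT hone c₀ i
  refine ⟨hlam, hpow, ?_⟩
  have hstart : ∃ t ∈ E.𝓔 a a', t ∈ D.O ∧
      ∀ j ∈ ([i₀] : List ι).toFinset, D.redF j t = algebraMap k (Fk j) (lam₀ j / lam₀ i₀) := by
    refine ⟨t₀, ht₀E, ht₀O, fun j hj => ?_⟩
    rw [List.toFinset_cons, List.toFinset_nil, Finset.mem_insert] at hj
    rcases hj with rfl | hj
    · rw [ht₀, div_self hlam, map_one]
    · exact absurd hj (Finset.notMem_empty _)
  obtain ⟨t, htE, htO, ht⟩ := start_induction C hn E hz hT hpow (i₀ :: L') hnd hlift L' [i₀] rfl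
    (List.mem_singleton_self _) hstart
  exact ⟨t, htE, htO, fun i => ht i (List.mem_toFinset.2 (hall i))⟩

end Fermat.Agent.S45lib.G
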